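import Mathlib

set_option autoImplicit false

/-!
# Level-3 elimination for the Hauptmodul `h₃` (S28, package M3b, backup by helper24)

If `j * h ^ 3 = (h + 27) * (h + 243) ^ 3` and `j3 * h = (h + 27) * (h + 3) ^ 3` then
`elimD j j3 * h = elimN j j3` for explicit integer polynomials `elimD`, `elimN`; for
`j = q⁻¹ u`, `j3 = q⁻³ u3` (`u, u3 ∈ 1 + q K⟦q⟧`) one has `elimN j j3 = -3 ^ 18 * q⁻⁸ + …`, hence
`h ∈ K(j, j3)` whenever `3 ≠ 0` in `K`.
-/

namespace Fermat.Agent.S28.H24

/-- The coefficient of `h` in the linear relation obtained by eliminating between the two level-3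
relations. -/
def elimD {R : Type*} [CommRing R] (j j3 : R) : R :=
    -j^5 * j3^2 + 1512 * j^5 * j3 - 374706 * j^5 + 3672 * j^4 * j3^2 + 2199927357 * j^4 * j3 + 3513587135760 * j^4
      - 4802436 * j^3 * j3^2 + 6287091255360 * j^3 * j3 - 578039691371443200 * j^3 + j^2 * j3^3
      + 2734670160 * j^2 * j3^2 - 12148776475948800 * j^2 * j3 + 3468720924518404608000 * j^2
      - 1440 * j * j3^3 - 607750387200 * j * j3^2 + 4430048196934656000 * j * j3 - 4101236057280872448000000 * j
      + 518400 * j3^3 + 19110670848000 * j3^2 + 170148916887552000000 * j3 + 1369513028852121600000000000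

/-- The constant term in the linear relation obtained by eliminating between the two level-3
relations. -/
def elimN {R : Type*} [CommRing R] (j j3 : R) : R :=
    -729 * j^5 * j3 + 551124 * j^5 - 13944460716 * j^4 * j3 - 16877673339120 * j^4 - 35694226104480 * j^3 * j3
      + 10379169493558848000 * j^3 - 387419760 * j^2 * j3^2 + 108392996345702400 * j^2 * j3 - 86248560322019464704000 * j^2
      + 557884454400 * j * j3^2 - 79754306454770688000 * j * j3 + 108081439958057877504000000 * j
      - 200838403584000 * j3^2 + 18302525195157504000000 * j3 - 36976851779007283200000000000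

theorem map_elimD {R S : Type*} [CommRing R] [CommRing S] (f : R →+* S) (j j3 : R) :
    f (elimD j j3) = elimD (f j) (f j3) := by
  simp only [elimD, map_add, map_sub, map_mul, map_pow, map_neg, map_ofNat]

theorem map_elimN {R S : Type*} [CommRing R] [CommRing S] (f : R →+* S) (j j3 : R) :
    f (elimN j j3) = elimN (f j) (f j3) := by
  simp only [elimN, map_add, map_sub, map_mul, map_pow, map_neg, map_ofNat]

/-- The elimination identity: a linear relation for `h` over `ℤ[j, j3]`. -/
theorem level_three_linear {R : Type*} [CommRing R] (j j3 h : R)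
    (rel1 : j * h ^ 3 = (h + 27) * (h + 243) ^ 3) (rel2 : j3 * h = (h + 27) * (h + 3) ^ 3) :
    elimD j j3 * h = elimN j j3 := by
  unfold elimD elimN
  linear_combination
    (-(270 * h^2 * j^4 + h^2 * j^3 * j3 + 25429680 * h^2 * j^3 - 2160 * h^2 * j^2 * j3 - 17132083200 * h^2 * j^2 + 1555200 * h^2 * j * j3 - 15281146368000 * h^2 * j - 373248000 * h^2 * j3 + 10319560704000000 * h^2 + h * j^4 * j3 + 8964 * h * j^4 - 2880 * h * j^3 * j3 - 158494320 * h * j^3 + 2913840 * h * j^2 * j3 - 2055056832000 * h * j^2 - 1209945600 * h * j * j3 + 3192389024256000 * h * j + 166841856000 * h * j3 - 1176429920256000000 * h + 36 * j^4 * j3 + 45684 * j^4 + 92124 * j^3 * j3 - 26779844160 * j^3 + j^2 * j3^2 - 279776160 * j^2 * j3 + 222607701273600 * j^2 - 1440 * j * j3^2 + 205858713600 * j * j3 - 278975282042880000 * j + 518400 * j3^2 - 47241999360000 * j3 + 95445616951296000000)) * rel1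
    + (-(-270 * h^2 * j^4 - h^2 * j^3 * j3 - 25429680 * h^2 * j^3 + 2160 * h^2 * j^2 * j3 + 17132083200 * h^2 * j^2 - 1555200 * h^2 * j * j3 + 15281146368000 * h^2 * j + 373248000 * h^2 * j3 - 10319560704000000 * h^2 + 270 * h * j^5 + 25226316 * h * j^4 - 35282958480 * h * j^3 + 196560 * h * j^2 * j3 - 890989632000 * h * j^2 - 283046400 * h * j * j3 + 18129597064704000 * h * j + 101896704000 * h * j3 - 6253653786624000000 * h + j^5 * j3 - 756 * j^5 - 3672 * j^4 * j3 - 1126535364 * j^4 + 4802436 * j^3 * j3 - 5636726677440 * j^3 - j^2 * j3^2 - 2715539040 * j^2 * j3 + 7922962188518400 * j^2 + 1440 * j * j3^2 + 580201574400 * j * j3 - 959904104785920000 * j - 518400 * j3^2 - 9193098240000 * j3 - 1009345912897536000000)) * rel2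

/-- `h` lies in the field generated by `j` and `j3` as soon as `elimN j j3 ≠ 0`. -/
theorem mem_adjoin_level_three {K L : Type*} [Field K] [Field L] [Algebra K L] (j j3 h : L)
    (rel1 : j * h ^ 3 = (h + 27) * (h + 243) ^ 3) (rel2 : j3 * h = (h + 27) * (h + 3) ^ 3)
    (hN : elimN j j3 ≠ 0) : h ∈ IntermediateField.adjoin K {j, j3} := by
  set F := IntermediateField.adjoin K {j, j3} with hF
  have hj : j ∈ F := IntermediateField.subset_adjoin K _ (by simp)
  have hj3 : j3 ∈ F := IntermediateField.subset_adjoin K _ (by simp)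
  have hlin := level_three_linear j j3 h rel1 rel2
  have hD : elimD j j3 ≠ 0 := by
    intro h0
    rw [h0, zero_mul] at hlin
    exact hN hlin.symm
  have hDmem : elimD j j3 ∈ F := by
    have := map_elimD (algebraMap F L) ⟨j, hj⟩ ⟨j3, hj3⟩
    rw [show (algebraMap F L) ⟨j, hj⟩ = j from rfl, show (algebraMap F L) ⟨j3, hj3⟩ = j3 from rfl]
      at this
    rw [← this]
    exact SetLike.coe_mem _
  have hNmem : elimN j j3 ∈ F := by
    have := map_elimN (algebraMap F L) ⟨j, hj⟩ ⟨j3, hj3⟩
    rw [show (algebraMap F L) ⟨j, hj⟩ = j from rfl, show (algebraMap F L) ⟨j3, hj3⟩ = j3 from rfl]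
      at this
    rw [← this]
    exact SetLike.coe_mem _
  have hh : h = elimN j j3 / elimD j j3 := by
    rw [eq_div_iff hD, mul_comm]
    exact hlin
  rw [hh]
  exact F.div_mem hNmem hDmem

open PowerSeries in
/-- The power series `q ^ 8 * elimN (q⁻¹ u) (q⁻³ u3)`. -/
noncomputable def elimNTilde {K : Type*} [CommRing K] (u u3 : PowerSeries K) : PowerSeries K :=
  -729 * u ^ 5 * u3 + 551124 * PowerSeries.X ^ 3 * u ^ 5 - 13944460716 * PowerSeries.X * u ^ 4 * u3 - 16877673339120 * PowerSeries.X ^ 4 * u ^ 4 - 35694226104480 * PowerSeries.X ^ 2 * u ^ 3 * u3 + 10379169493558848000 * PowerSeries.X ^ 5 * u ^ 3 - 387419760 * u ^ 2 * u3 ^ 2 + 108392996345702400 * PowerSeries.X ^ 3 * u ^ 2 * u3 - 86248560322019464704000 * PowerSeries.X ^ 6 * u ^ 2 + 557884454400 * PowerSeries.X * u * u3 ^ 2 - 79754306454770688000 * PowerSeries.X ^ 4 * u * u3 + 108081439958057877504000000 * PowerSeries.X ^ 7 * u - 200838403584000 * PowerSeries.X ^ 2 * u3 ^ 2 + 18302525195157504000000 * PowerSeries.X ^ 5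 * u3 - 36976851779007283200000000000 * PowerSeries.X ^ 8

open PowerSeries in
theorem constantCoeff_elimNTilde {K : Type*} [CommRing K] (u u3 : PowerSeries K)
    (hu : constantCoeff u = 1) (hu3 : constantCoeff u3 = 1) :
    constantCoeff (elimNTilde u u3) = -3 ^ 18 := by
  simp only [elimNTilde, map_add, map_sub, map_mul, map_pow, map_neg, map_ofNat, hu, hu3,
    constantCoeff_X, one_pow, mul_one, ne_eq, OfNat.ofNat_ne_zero, not_false_eq_true, zero_pow,
    mul_zero, add_zero, sub_zero]
  norm_num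

open HahnSeries in
/-- In `K((q))` with `3 ≠ 0`: for `j = q⁻¹ u`, `j3 = q⁻³ u3` with `u, u3 ∈ 1 + q K⟦q⟧`, the
element `elimN j j3` is nonzero (its lowest term is `-3 ^ 18 q⁻⁸`). -/
theorem elimN_ne_zero {K : Type*} [Field K] (h3 : (3 : K) ≠ 0) (u u3 : PowerSeries K)
    (hu : PowerSeries.constantCoeff u = 1) (hu3 : PowerSeries.constantCoeff u3 = 1) :
    elimN ((single (-1 : ℤ) (1 : K)) * ofPowerSeries ℤ K u)
      ((single (-3 : ℤ) (1 : K)) * ofPowerSeries ℤ K u3) ≠ (0 : LaurentSeries K) := by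
  set Q : LaurentSeries K := single (1 : ℤ) (1 : K) with hQdef
  have hQ : Q ≠ 0 := by
    rw [hQdef]
    exact single_ne_zero one_ne_zero
  have hQi : (single (-1 : ℤ) (1 : K) : LaurentSeries K) = Q⁻¹ := by
    rw [eq_comm, inv_eq_iff_eq_inv]
    symm
    apply inv_eq_of_mul_eq_one_left
    rw [hQdef, single_mul_single]
    simp
  have hQi3 : (single (-3 : ℤ) (1 : K) : LaurentSeries K) = (Q⁻¹) ^ 3 := by
    rw [← hQi, single_pow]
    simp
  have hX : ofPowerSeries ℤ K (PowerSeries.X : PowerSeries K) = Q := by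
    rw [hQdef]
    exact ofPowerSeries_X
  have key : Q ^ 8 * elimN (Q⁻¹ * ofPowerSeries ℤ K u) ((Q⁻¹) ^ 3 * ofPowerSeries ℤ K u3)
      = ofPowerSeries ℤ K (elimNTilde u u3) := by
    simp only [elimNTilde, map_add, map_sub, map_mul, map_pow, map_neg, map_ofNat, hX]
    unfold elimN
    field_simp
  rw [hQi, hQi3]
  intro h0
  rw [h0, mul_zero] at key
  have hinj : Function.Injective (ofPowerSeries ℤ K) := ofPowerSeries_injective
  have h1 : elimNTilde u u3 = 0 := by
    apply hinj
    rw [← key, map_zero]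
  have h2 := constantCoeff_elimNTilde u u3 hu hu3
  rw [h1, map_zero] at h2
  have : (3 : K) ^ 18 = 0 := by
    have h4 : (-(3 : K) ^ 18) = 0 := h2.symm
    simpa using h4
  exact h3 (pow_eq_zero_iff (by norm_num) |>.mp this)

open HahnSeries in
/-- **M3b (level 3)**: for `j = q⁻¹ u`, `j3 = q⁻³ u3` (`u, u3 ∈ 1 + q K⟦q⟧`) in `K((q))` with
`3 ≠ 0` in `K`, the two level-3 relations force `h ∈ K(j, j3)`. -/
theorem mem_adjoin_level_three_laurent {K : Type*} [Field K] (h3 : (3 : K) ≠ 0)
    (u u3 : PowerSeries K) (hu : PowerSeries.constantCoeff u = 1)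
    (hu3 : PowerSeries.constantCoeff u3 = 1) (j j3 h : LaurentSeries K)
    (hj : j = (single (-1 : ℤ) (1 : K)) * ofPowerSeries ℤ K u)
    (hj3 : j3 = (single (-3 : ℤ) (1 : K)) * ofPowerSeries ℤ K u3)
    (rel1 : j * h ^ 3 = (h + 27) * (h + 243) ^ 3) (rel2 : j3 * h = (h + 27) * (h + 3) ^ 3) :
    h ∈ IntermediateField.adjoin K {j, j3} := by
  refine mem_adjoin_level_three j j3 h rel1 rel2 ?_
  rw [hj, hj3]
  exact elimN_ne_zero h3 u u3 hu hu3

end Fermat.Agent.S28.H24
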