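import Mathlib
import Fermat.Prelude.Def_ModularCurve_X0
import Fermat.Agent.S24.H76.JBridge

/-!
# S28 / M2 helper: verified truncated power series arithmetic over `ℤ`

`IsTr n f a` says that the first `n` coefficients of `f : ℤ⟦X⟧` are the entries of the list `a`.
The list operations `mulL`, `addL`, `subL`, `smulL`, `expandL` are computable, so that the
coefficient lists of concrete series can be checked by kernel evaluation.
-/

set_option autoImplicit false

namespace Fermat.Agent.S28.H24

open PowerSeries

/-- `IsTr n f a`: for `k < n`, the `k`-th coefficient of `f` is the `k`-th entry of `a`. -/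
def IsTr (n : ℕ) (f : PowerSeries ℤ) (a : List ℤ) : Prop :=
  ∀ k, k < n → PowerSeries.coeff k f = a.getD k 0

/-- truncated product of coefficient lists -/
def mulL (n : ℕ) (a b : List ℤ) : List ℤ :=
  (List.range n).map fun k =>
    ((List.range (k + 1)).map fun i => a.getD i 0 * b.getD (k - i) 0).sum

/-- truncated sum of coefficient lists -/
def addL (n : ℕ) (a b : List ℤ) : List ℤ :=
  (List.range n).map fun k => a.getD k 0 + b.getD k 0

/-- truncated difference of coefficient lists -/
def subL (n : ℕ) (a b : List ℤ) : List ℤ :=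
  (List.range n).map fun k => a.getD k 0 - b.getD k 0

/-- scalar multiple of a coefficient list -/
def smulL (n : ℕ) (c : ℤ) (a : List ℤ) : List ℤ :=
  (List.range n).map fun k => c * a.getD k 0

/-- the substitution `X ↦ X ^ d` on coefficient lists -/
def expandL (n d : ℕ) (a : List ℤ) : List ℤ :=
  (List.range n).map fun k => if d ∣ k then a.getD (k / d) 0 else 0

/-- the coefficient list of `X` -/
def xL (n : ℕ) : List ℤ := (List.range n).map fun k => if k = 1 then 1 else 0

/-- the coefficient list of `1 - X ^ m` -/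
def oneSubXPowL (n m : ℕ) : List ℤ :=
  (List.range n).map fun k => (if k = 0 then 1 else 0) - (if k = m then 1 else 0)

theorem getD_map_range (f : ℕ → ℤ) {n k : ℕ} (hk : k < n) :
    ((List.range n).map f).getD k 0 = f k := by
  simp [List.getD_eq_getElem?_getD, hk]

theorem sum_map_range (f : ℕ → ℤ) (m : ℕ) :
    ((List.range m).map f).sum = ∑ i ∈ Finset.range m, f i := by
  induction m with
  | zero => simp
  | succ m ih => rw [List.range_succ, List.map_append, List.sum_append, ih, Finset.sum_range_succ]; simp

namespace IsTr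

variable {n : ℕ} {f g : PowerSeries ℤ} {a b : List ℤ}

theorem of_eq (h : IsTr n f a) (hf : f = g) (ha : a = b) : IsTr n g b := by
  subst hf; subst ha; exact h

theorem mul (hf : IsTr n f a) (hg : IsTr n g b) : IsTr n (f * g) (mulL n a b) := by
  intro k hk
  rw [mulL, getD_map_range _ hk, sum_map_range, PowerSeries.coeff_mul,
    Finset.Nat.sum_antidiagonal_eq_sum_range_succ_mk]
  refine Finset.sum_congr rfl fun i hi => ?_
  have hi' : i < k + 1 := Finset.mem_range.mp hi
  rw [hf i (by omega), hg (k - i) (by omega)]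

theorem add (hf : IsTr n f a) (hg : IsTr n g b) : IsTr n (f + g) (addL n a b) := by
  intro k hk
  rw [addL, getD_map_range _ hk, map_add, hf k hk, hg k hk]

theorem sub (hf : IsTr n f a) (hg : IsTr n g b) : IsTr n (f - g) (subL n a b) := by
  intro k hk
  rw [subL, getD_map_range _ hk, map_sub, hf k hk, hg k hk]

theorem smul (c : ℤ) (hf : IsTr n f a) : IsTr n (PowerSeries.C c * f) (smulL n c a) := by
  intro k hk
  rw [smulL, getD_map_range _ hk, PowerSeries.coeff_C_mul, hf k hk]

theorem expand (d : ℕ) (hd : d ≠ 0) (hf : IsTr n f a) :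
    IsTr n (PowerSeries.expand d hd f) (expandL n d a) := by
  intro k hk
  rw [expandL, getD_map_range _ hk, PowerSeries.coeff_expand]
  split_ifs with h
  · exact hf (k / d) (lt_of_le_of_lt (Nat.div_le_self k d) hk)
  · rfl

end IsTr

theorem isTr_X (n : ℕ) : IsTr n (PowerSeries.X : PowerSeries ℤ) (xL n) := by
  intro k hk
  rw [xL, getD_map_range _ hk, PowerSeries.coeff_X]

theorem isTr_one_sub_X_pow (n m : ℕ) :
    IsTr n ((1 : PowerSeries ℤ) - PowerSeries.X ^ m) (oneSubXPowL n m) := by
  intro k hk
  rw [oneSubXPowL, getD_map_range _ hk, map_sub, PowerSeries.coeff_one, PowerSeries.coeff_X_pow]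

open Fermat.Agent.S24.H76 in
theorem isTr_etaPart_zero (n : ℕ) : IsTr n (etaPart 0) (oneSubXPowL n n) := by
  intro k hk
  rw [oneSubXPowL, getD_map_range _ hk, etaPart, Finset.prod_range_zero, PowerSeries.coeff_one,
    if_neg (Nat.ne_of_lt hk), sub_zero]

open Fermat.Agent.S24.H76 in
theorem isTr_etaPart_succ {n M : ℕ} {a : List ℤ} (h : IsTr n (etaPart M) a) :
    IsTr n (etaPart (M + 1)) (mulL n a (oneSubXPowL n (M + 1))) := by
  have : etaPart (M + 1) = etaPart M * (1 - PowerSeries.X ^ (M + 1)) := by
    rw [etaPart, Finset.prod_range_succ, ← etaPart]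
  rw [this]
  exact h.mul (isTr_one_sub_X_pow n (M + 1))

open Fermat.Agent.S24.H76 in
theorem isTr_etaProd {n M : ℕ} {a : List ℤ} (hM : n ≤ M + 1) (h : IsTr n (etaPart M) a) :
    IsTr n ModularCurve.etaProd a := by
  intro k hk
  rw [coeff_etaProd (M := M) (by omega)]
  exact h k hk

/-- If the first `n` coefficients of `f` vanish... -/
theorem IsTr.coeff_eq_zero {n : ℕ} {f : PowerSeries ℤ} (h : IsTr n f (List.replicate n 0))
    {k : ℕ} (hk : k < n) : PowerSeries.coeff k f = 0 := by
  rw [h k hk, List.getD_eq_getElem?_getD]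
  simp [hk]

end Fermat.Agent.S28.H24
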