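import Mathlib
import Fermat.Prelude.Def_ModularCurve_X0
import Fermat.Agent.S28.Defs
import Fermat.Agent.S28.H24.Trunc

/-!
# S28 / M2: coefficient check for the level-3 identities (generated file)

The first 17 coefficients of both sides of the level-3 identities between
`eisenstein4`, `deltaPS` and their images under `X ↦ X ^ 3` agree; checked by kernel
evaluation of truncated integer power series arithmetic (`IsTr`).
-/

set_option autoImplicit false

namespace Fermat.Agent.S28.H24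

open ModularCurve Fermat.Agent.S28 Fermat.Agent.S24.H76

theorem t3_E4 : IsTr 17 eisenstein4
    [1, 240, 2160, 6720, 17520, 30240, 60480, 82560, 140400, 181680, 272160, 319680, 490560, 527520, 743040, 846720, 1123440] := by
  intro k hk
  rw [ModularCurve.eisenstein4, PowerSeries.coeff_mk]
  revert k
  decide +kernel

theorem t3_eta0 : IsTr 17 (etaPart 0)
    [1, 0, 0, 0, 0, 0, 0, 0, 0, 0, 0, 0, 0, 0, 0, 0, 0] :=
  (isTr_etaPart_zero 17).of_eq rfl (by decide +kernel)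

theorem t3_eta1 : IsTr 17 (etaPart 1)
    [1, -1, 0, 0, 0, 0, 0, 0, 0, 0, 0, 0, 0, 0, 0, 0, 0] :=
  (isTr_etaPart_succ t3_eta0).of_eq rfl (by decide +kernel)

theorem t3_eta2 : IsTr 17 (etaPart 2)
    [1, -1, -1, 1, 0, 0, 0, 0, 0, 0, 0, 0, 0, 0, 0, 0, 0] :=
  (isTr_etaPart_succ t3_eta1).of_eq rfl (by decide +kernel)

theorem t3_eta3 : IsTr 17 (etaPart 3)
    [1, -1, -1, 0, 1, 1, -1, 0, 0, 0, 0, 0, 0, 0, 0, 0, 0] :=
  (isTr_etaPart_succ t3_eta2).of_eq rfl (by decide +kernel)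

theorem t3_eta4 : IsTr 17 (etaPart 4)
    [1, -1, -1, 0, 0, 2, 0, 0, -1, -1, 1, 0, 0, 0, 0, 0, 0] :=
  (isTr_etaPart_succ t3_eta3).of_eq rfl (by decide +kernel)

theorem t3_eta5 : IsTr 17 (etaPart 5)
    [1, -1, -1, 0, 0, 1, 1, 1, -1, -1, -1, 0, 0, 1, 1, -1, 0] :=
  (isTr_etaPart_succ t3_eta4).of_eq rfl (by decide +kernel)

theorem t3_eta6 : IsTr 17 (etaPart 6)
    [1, -1, -1, 0, 0, 1, 0, 2, 0, -1, -1, -1, -1, 0, 2, 0, 1] :=
  (isTr_etaPart_succ t3_eta5).of_eq rfl (by decide +kernel)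

theorem t3_eta7 : IsTr 17 (etaPart 7)
    [1, -1, -1, 0, 0, 1, 0, 1, 1, 0, -1, -1, -2, 0, 0, 0, 2] :=
  (isTr_etaPart_succ t3_eta6).of_eq rfl (by decide +kernel)

theorem t3_eta8 : IsTr 17 (etaPart 8)
    [1, -1, -1, 0, 0, 1, 0, 1, 0, 1, 0, -1, -2, -1, 0, -1, 1] :=
  (isTr_etaPart_succ t3_eta7).of_eq rfl (by decide +kernel)

theorem t3_eta9 : IsTr 17 (etaPart 9)
    [1, -1, -1, 0, 0, 1, 0, 1, 0, 0, 1, 0, -2, -1, -1, -1, 0] :=
  (isTr_etaPart_succ t3_eta8).of_eq rfl (by decide +kernel)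

theorem t3_eta10 : IsTr 17 (etaPart 10)
    [1, -1, -1, 0, 0, 1, 0, 1, 0, 0, 0, 1, -1, -1, -1, -2, 0] :=
  (isTr_etaPart_succ t3_eta9).of_eq rfl (by decide +kernel)

theorem t3_eta11 : IsTr 17 (etaPart 11)
    [1, -1, -1, 0, 0, 1, 0, 1, 0, 0, 0, 0, 0, 0, -1, -2, -1] :=
  (isTr_etaPart_succ t3_eta10).of_eq rfl (by decide +kernel)

theorem t3_eta12 : IsTr 17 (etaPart 12)
    [1, -1, -1, 0, 0, 1, 0, 1, 0, 0, 0, 0, -1, 1, 0, -2, -1] :=
  (isTr_etaPart_succ t3_eta11).of_eq rfl (by decide +kernel)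

theorem t3_eta13 : IsTr 17 (etaPart 13)
    [1, -1, -1, 0, 0, 1, 0, 1, 0, 0, 0, 0, -1, 0, 1, -1, -1] :=
  (isTr_etaPart_succ t3_eta12).of_eq rfl (by decide +kernel)

theorem t3_eta14 : IsTr 17 (etaPart 14)
    [1, -1, -1, 0, 0, 1, 0, 1, 0, 0, 0, 0, -1, 0, 0, 0, 0] :=
  (isTr_etaPart_succ t3_eta13).of_eq rfl (by decide +kernel)

theorem t3_eta15 : IsTr 17 (etaPart 15)
    [1, -1, -1, 0, 0, 1, 0, 1, 0, 0, 0, 0, -1, 0, 0, -1, 1] :=
  (isTr_etaPart_succ t3_eta14).of_eq rfl (by decide +kernel)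

theorem t3_eta16 : IsTr 17 (etaPart 16)
    [1, -1, -1, 0, 0, 1, 0, 1, 0, 0, 0, 0, -1, 0, 0, -1, 0] :=
  (isTr_etaPart_succ t3_eta15).of_eq rfl (by decide +kernel)

theorem t3_eta : IsTr 17 etaProd
    [1, -1, -1, 0, 0, 1, 0, 1, 0, 0, 0, 0, -1, 0, 0, -1, 0] :=
  isTr_etaProd (M := 16) (by norm_num) t3_eta16

theorem t3_p2 : IsTr 17 (etaProd ^ 2)
    [1, -2, -1, 2, 1, 2, -2, 0, -2, -2, 1, 0, 0, 2, 3, -2, 2] :=
  (t3_eta.mul t3_eta).of_eq (by ring) (by decide +kernel)

theorem t3_p3 : IsTr 17 (etaProd ^ 3)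
    [1, -3, 0, 5, 0, 0, -7, 0, 0, 0, 9, 0, 0, 0, 0, -11, 0] :=
  (t3_p2.mul t3_eta).of_eq (by ring) (by decide +kernel)

theorem t3_p6 : IsTr 17 (etaProd ^ 6)
    [1, -6, 9, 10, -30, 0, 11, 42, 0, -70, 18, -54, 49, 90, 0, -22, -60] :=
  (t3_p3.mul t3_p3).of_eq (by ring) (by decide +kernel)

theorem t3_p12 : IsTr 17 (etaProd ^ 12)
    [1, -12, 54, -88, -99, 540, -418, -648, 594, 836, 1056, -4104, -209, 4104, -594, 4256, -6480] :=
  (t3_p6.mul t3_p6).of_eq (by ring) (by decide +kernel)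

theorem t3_p24 : IsTr 17 (etaProd ^ 24)
    [1, -24, 252, -1472, 4830, -6048, -16744, 84480, -113643, -115920, 534612, -370944, -577738, 401856, 1217160, 987136, -6905934] :=
  (t3_p12.mul t3_p12).of_eq (by ring) (by decide +kernel)

theorem t3_delta : IsTr 17 deltaPS
    [0, 1, -24, 252, -1472, 4830, -6048, -16744, 84480, -113643, -115920, 534612, -370944, -577738, 401856, 1217160, 987136] :=
  ((isTr_X 17).mul t3_p24).of_eq (by rw [deltaPS, dedekindEtaUnit]) (by decide +kernel)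

theorem t3_E4c : IsTr 17 (eisenstein4 ^ 3)
    [1, 720, 179280, 16954560, 396974160, 4632858720, 34413301440, 187477879680, 814940600400, 2975469665040, 9486467837280, 27053330840640, 70485969919680, 169930679355360, 384163875688320, 820167497170560, 1668890801059920] :=
  ((t3_E4.mul t3_E4).mul t3_E4).of_eq (by ring) (by decide +kernel)

theorem t3_deltaV : IsTr 17 (vPS 3 deltaPS)
    [0, 0, 0, 1, 0, 0, -24, 0, 0, 252, 0, 0, -1472, 0, 0, 4830, 0] :=
  (t3_delta.expand 3 (by norm_num)).of_eq rfl (by decide +kernel)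

theorem t3_E4V : IsTr 17 (vPS 3 eisenstein4)
    [1, 0, 0, 240, 0, 0, 2160, 0, 0, 6720, 0, 0, 17520, 0, 0, 30240, 0] :=
  (t3_E4.expand 3 (by norm_num)).of_eq rfl (by decide +kernel)

theorem t3_E4Vc : IsTr 17 (vPS 3 eisenstein4 ^ 3)
    [1, 0, 0, 720, 0, 0, 179280, 0, 0, 16954560, 0, 0, 396974160, 0, 0, 4632858720, 0] :=
  ((t3_E4V.mul t3_E4V).mul t3_E4V).of_eq (by ring) (by decide +kernel)

theorem t3_level3_a_t : IsTr 17 (eisenstein4 ^ 3 - 756 * deltaPS - 19131876 * vPS 3 deltaPS)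
    [1, -36, 197424, -2367828, 398086992, 4629207240, 34877038752, 187490538144, 814876733520, 2970734346396, 9486555472800, 27052926673968, 70514412474816, 169931116125288, 384163571885184, 820074170036520, 1668890054785104] :=
  ((t3_E4c.sub (t3_delta.smul 756)).sub (t3_deltaV.smul 19131876)).of_eq
    (by simp only [map_ofNat]) (by decide +kernel)

theorem t3_level3_a_dd : IsTr 17 (deltaPS * vPS 3 deltaPS)
    [0, 0, 0, 0, 1, -24, 252, -1496, 5406, -12096, 18836, -37488, 95013, -86480, -240420, 461448, 156468] :=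
  (t3_delta.mul t3_deltaV).of_eq rfl (by decide +kernel)

theorem t3_level3_a_lhs : IsTr 17 (deltaPS * vPS 3 deltaPS * (eisenstein4 ^ 3 - 756 * deltaPS - 19131876 * vPS 3 deltaPS) ^ 2)
    [0, 0, 0, 0, 1, -96, 398124, -28477280, 40497639198, -1918333919232, 195527078239364, -4260506392772544, 194338960283947653, -276756497621582912, 1222330942278791628, -19025088944838264288, 17056116962597468244] :=
  (t3_level3_a_dd.mul (t3_level3_a_t.mul t3_level3_a_t)).of_eq (by ring) (by decide +kernel)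

theorem t3_level3_a_q : IsTr 17 (deltaPS ^ 2 + 196830 * deltaPS * vPS 3 deltaPS + 387420489 * vPS 3 deltaPS ^ 2)
    [0, 0, 1, -48, 197910, -4738960, 437165469, -295443504, 1068920900, -20993334192, 3735902790, -7340091440, 436691016366, -15753508128, -48533805760, -5740283890800, 49090688280] :=
  (((t3_delta.mul t3_delta).add (t3_level3_a_dd.smul 196830)).add
    ((t3_deltaV.mul t3_deltaV).smul 387420489)).of_eq
    (by simp only [map_ofNat]; ring) (by decide +kernel)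

theorem t3_level3_a_rhs : IsTr 17 ((deltaPS ^ 2 + 196830 * deltaPS * vPS 3 deltaPS + 387420489 * vPS 3 deltaPS ^ 2) ^ 2)
    [0, 0, 0, 0, 1, -96, 398124, -28477280, 40497639198, -1918333919232, 195527078239364, -4260506392772544, 194338960283947653, -276756497621582912, 1222330942278791628, -19025088944838264288, 17056116962597468244] :=
  (t3_level3_a_q.mul t3_level3_a_q).of_eq (by ring) (by decide +kernel)

/-- The first 17 coefficients of the two sides of the identity agree. -/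
theorem isTr_level3_a : IsTr 17
    (deltaPS * vPS 3 deltaPS * (eisenstein4 ^ 3 - 756 * deltaPS - 19131876 * vPS 3 deltaPS) ^ 2 -
      (deltaPS ^ 2 + 196830 * deltaPS * vPS 3 deltaPS + 387420489 * vPS 3 deltaPS ^ 2) ^ 2) (List.replicate 17 0) :=
  (t3_level3_a_lhs.sub t3_level3_a_rhs).of_eq rfl (by decide +kernel)

theorem t3_level3_b_t : IsTr 17 (vPS 3 eisenstein4 ^ 3 - 36 * deltaPS - 756 * vPS 3 deltaPS)
    [1, -36, 864, -9108, 52992, -173880, 415152, 602784, -3041280, 20855196, 4173120, -19246032, 411440976, 20798568, -14466816, 4585389480, -35536896] :=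
  ((t3_E4Vc.sub (t3_delta.smul 36)).sub (t3_deltaV.smul 756)).of_eq
    (by simp only [map_ofNat]) (by decide +kernel)

theorem t3_level3_b_dd : IsTr 17 (deltaPS * vPS 3 deltaPS)
    [0, 0, 0, 0, 1, -24, 252, -1496, 5406, -12096, 18836, -37488, 95013, -86480, -240420, 461448, 156468] :=
  (t3_delta.mul t3_deltaV).of_eq rfl (by decide +kernel)

theorem t3_level3_b_lhs : IsTr 17 (deltaPS * vPS 3 deltaPS * (vPS 3 eisenstein4 ^ 3 - 36 * deltaPS - 756 * vPS 3 deltaPS) ^ 2)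
    [0, 0, 0, 0, 1, -96, 5004, -172640, 4313598, -81292032, 1183151204, -13547815104, 124014231333, -918863335232, 5547786538668, -27215285112288, 106195231483284] :=
  (t3_level3_b_dd.mul (t3_level3_b_t.mul t3_level3_b_t)).of_eq (by ring) (by decide +kernel)

theorem t3_level3_b_q : IsTr 17 (deltaPS ^ 2 + 270 * deltaPS * vPS 3 deltaPS + 729 * vPS 3 deltaPS ^ 2)
    [0, 0, 1, -48, 1350, -21520, 212589, -1389744, 6317540, -19595952, 33498630, 28549840, -398079714, 1245000672, -1276850560, -4192919280, 18335338200] :=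
  (((t3_delta.mul t3_delta).add (t3_level3_b_dd.smul 270)).add
    ((t3_deltaV.mul t3_deltaV).smul 729)).of_eq
    (by simp only [map_ofNat]; ring) (by decide +kernel)

theorem t3_level3_b_rhs : IsTr 17 ((deltaPS ^ 2 + 270 * deltaPS * vPS 3 deltaPS + 729 * vPS 3 deltaPS ^ 2) ^ 2)
    [0, 0, 0, 0, 1, -96, 5004, -172640, 4313598, -81292032, 1183151204, -13547815104, 124014231333, -918863335232, 5547786538668, -27215285112288, 106195231483284] :=
  (t3_level3_b_q.mul t3_level3_b_q).of_eq (by ring) (by decide +kernel)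

/-- The first 17 coefficients of the two sides of the identity agree. -/
theorem isTr_level3_b : IsTr 17
    (deltaPS * vPS 3 deltaPS * (vPS 3 eisenstein4 ^ 3 - 36 * deltaPS - 756 * vPS 3 deltaPS) ^ 2 -
      (deltaPS ^ 2 + 270 * deltaPS * vPS 3 deltaPS + 729 * vPS 3 deltaPS ^ 2) ^ 2) (List.replicate 17 0) :=
  (t3_level3_b_lhs.sub t3_level3_b_rhs).of_eq rfl (by decide +kernel)

end Fermat.Agent.S28.H24
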