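import Mathlib
import Fermat.Prelude.Def_ModularForm_HeckeOperator
import Fermat.Prelude.Thm_CongruenceSubgroup_one_mem_strictPeriods_Gamma0
import Fermat.Agent.S23.H21.SepForm

/-!
# S28 / M2 helper: level raising `f(z) ↦ f(N z)` and restriction to `Γ₀(N)`

For a level-one modular form `f` of weight `k`:

* `restr N f : ModularForm (Gamma0 N) k`, the same function, with the same `q`-expansion;
* `raise N f : ModularForm (Gamma0 N) k`, the function `z ↦ f (N z)`, whose `q`-expansion is
  `PowerSeries.expand N` of the `q`-expansion of `f`.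
-/

set_option autoImplicit false

noncomputable section

namespace Fermat.Agent.S28.H24

open UpperHalfPlane ModularForm CongruenceSubgroup Filter Topology Matrix.SpecialLinearGroup
open scoped MatrixGroups Manifold ModularForm

variable {F : Type*} [FunLike F ℍ ℂ] {k : ℤ} [ModularFormClass F 𝒮ℒ k]

theorem Gamma0_le_SL (N : ℕ) :
    ((Gamma0 N : Subgroup SL(2, ℤ)) : Subgroup (GL (Fin 2) ℝ)) ≤ 𝒮ℒ := by
  rintro _ ⟨γ, _, rfl⟩
  exact ⟨γ, rfl⟩

/-- A level-one modular form, viewed as a modular form on `Γ₀(N)`. -/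
def restr (N : ℕ) (f : F) : ModularForm (Gamma0 N) k where
  toFun := f
  slash_action_eq' γ hγ := SlashInvariantFormClass.slash_action_eq f γ (Gamma0_le_SL N hγ)
  holo' := ModularFormClass.holo f
  bdd_at_cusps' hc := ModularFormClass.bdd_at_cusps f (hc.mono (Gamma0_le_SL N))

@[simp]
theorem coe_restr (N : ℕ) (f : F) : (restr N f : ℍ → ℂ) = f := rfl

theorem qExpansion_restr (N : ℕ) (f : F) : qExpansion 1 (restr N f) = qExpansion 1 f := rfl

open ConjAct Pointwise in
/-- The function `z ↦ N^(k-1) f(N z)` as a modular form of weight `k` on `Γ₀(N)`. -/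
def raiseAux (N : ℕ) [NeZero N] (f : F) : ModularForm (Gamma0 N) k where
  toFun := (f : ℍ → ℂ) ∣[k] heckeDiagMatrix N
  slash_action_eq' γ hγ :=
    (ModularForm.translate f (heckeDiagMatrix N)).slash_action_eq' γ
      (Fermat.Agent.S23.H21.Gamma0_le_conj N hγ)
  holo' := (ModularForm.translate f (heckeDiagMatrix N)).holo'
  bdd_at_cusps' hc :=
    (ModularForm.translate f (heckeDiagMatrix N)).bdd_at_cusps'
      (hc.mono (Fermat.Agent.S23.H21.Gamma0_le_conj N))

theorem raiseAux_coe (N : ℕ) [NeZero N] (f : F) :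
    (raiseAux N f : ℍ → ℂ) = (f : ℍ → ℂ) ∣[k] heckeDiagMatrix N := rfl

theorem raiseAux_apply (N : ℕ) [NeZero N] (f : F) (z : ℍ) :
    raiseAux N f z = (N : ℂ) ^ (k - 1) * f (heckeDiagMatrix N • z) := by
  rw [raiseAux_coe, slash_heckeDiagMatrix_apply k (NeZero.ne N)]

/-- The function `z ↦ f(N z)` as a modular form of weight `k` on `Γ₀(N)`. -/
def raise (N : ℕ) [NeZero N] (f : F) : ModularForm (Gamma0 N) k :=
  (((N : ℂ) ^ (k - 1))⁻¹) • raiseAux N f

theorem raise_apply (N : ℕ) [NeZero N] (f : F) (z : ℍ) :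
    raise N f z = f (heckeDiagMatrix N • z) := by
  have hN : (N : ℂ) ≠ 0 := by exact_mod_cast NeZero.ne N
  show (((N : ℂ) ^ (k - 1))⁻¹) • raiseAux N f z = _
  rw [raiseAux_apply, smul_eq_mul, ← mul_assoc, inv_mul_cancel₀ (zpow_ne_zero _ hN), one_mul]

theorem hasSum_raise (N : ℕ) [NeZero N] (f : F) (τ : ℍ) :
    HasSum (fun m : ℕ => (if N ∣ m then (qExpansion 1 f).coeff (m / N) else 0) •
      Function.Periodic.qParam 1 (τ : ℂ) ^ m) (raise N f τ) := by
  have hN : 0 < N := Nat.pos_of_ne_zero (NeZero.ne N)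
  have h1 := ModularForm.hasSum_qExpansion (f := f) one_pos one_mem_strictPeriods_SL
    (heckeDiagMatrix N • τ)
  rw [← raise_apply] at h1
  have hinj : Function.Injective (fun m : ℕ => N * m) := fun a b h => by
    exact Nat.eq_of_mul_eq_mul_left hN h
  rw [← hinj.hasSum_iff]
  · convert h1 using 2 with m
    simp only [Function.comp_apply, Nat.dvd_mul_right, if_true, Nat.mul_div_cancel_left _ hN,
      Fermat.Agent.S23.H21.qParam_heckeDiag, smul_eq_mul, ← pow_mul]
  · intro m hm
    have : ¬ N ∣ m := fun ⟨k, hk⟩ => hm ⟨k, hk.symm⟩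
    simp [this]

/-- The `q`-expansion of `z ↦ f(N z)` is the `q`-expansion of `f` with `q` replaced by `q ^ N`. -/
theorem qExpansion_raise (N : ℕ) [NeZero N] (f : F) :
    qExpansion 1 (raise N f) = PowerSeries.expand N (NeZero.ne N) (qExpansion 1 f) := by
  ext m
  rw [PowerSeries.coeff_expand]
  exact (ModularFormClass.qExpansion_coeff_unique one_pos
    (CongruenceSubgroup.one_mem_strictPeriods_Gamma0 N) (hasSum_raise N f) m).symm

end Fermat.Agent.S28.H24

end
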