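import Mathlib
import Fermat.Prelude.Thm_ModularForm_sturm_bound_Gamma0
import Fermat.Prelude.Thm_CongruenceSubgroup_one_mem_strictPeriods_Gamma0
import Fermat.Agent.S20.H77.Index
import Fermat.Agent.S24.H76.JBridge
import Fermat.Agent.S28.Defs
import Fermat.Agent.S28.H24.Raise
import Fermat.Agent.S28.H24.Trunc

/-!
# S28 / M2 helper: the forms `E₄(z)`, `E₄(N z)`, `Δ(z)`, `Δ(N z)` on `Γ₀(N)`, their integral
`q`-expansions, and the Sturm bound in the form "an integral power series identity which is the
`q`-expansion of a modular form identity holds as soon as it holds up to the Sturm bound".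
-/

set_option autoImplicit false

noncomputable section

namespace Fermat.Agent.S28.H24

open UpperHalfPlane ModularForm CongruenceSubgroup ModularCurve Fermat.Agent.S28
open scoped MatrixGroups Manifold ModularForm

section Forms

variable (N : ℕ) [NeZero N]

/-- `E₄` on `Γ₀(N)`. -/
def e4F : ModularForm (Gamma0 N) 4 := restr N E₄

/-- `z ↦ E₄(N z)` on `Γ₀(N)`. -/
def e4V : ModularForm (Gamma0 N) 4 := raise N E₄

/-- `Δ` on `Γ₀(N)`. -/
def dF : ModularForm (Gamma0 N) 12 := restr N CuspForm.discriminant

/-- `z ↦ Δ(N z)` on `Γ₀(N)`. -/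
def dV : ModularForm (Gamma0 N) 12 := raise N CuspForm.discriminant

theorem qExpansion_discriminant_eq :
    qExpansion 1 (CuspForm.discriminant : ℍ → ℂ) = deltaPS.map (Int.castRingHom ℂ) := by
  rw [CuspForm.coe_discriminant, Fermat.Agent.S24.H76.qExpansion_discriminant, deltaPS,
    dedekindEtaUnit, map_mul, PowerSeries.map_X]

omit [NeZero N] in
theorem qExpansion_e4F : qExpansion 1 (e4F N) = eisenstein4.map (Int.castRingHom ℂ) := by
  rw [e4F, qExpansion_restr, Fermat.Agent.S24.H76.qExpansion_E4]

theorem qExpansion_e4V :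
    qExpansion 1 (e4V N) = (vPS N eisenstein4).map (Int.castRingHom ℂ) := by
  rw [e4V, qExpansion_raise, Fermat.Agent.S24.H76.qExpansion_E4, PowerSeries.map_expand]

omit [NeZero N] in
theorem qExpansion_dF : qExpansion 1 (dF N) = deltaPS.map (Int.castRingHom ℂ) := by
  rw [dF, qExpansion_restr, qExpansion_discriminant_eq]

theorem qExpansion_dV :
    qExpansion 1 (dV N) = (vPS N deltaPS).map (Int.castRingHom ℂ) := by
  rw [dV, qExpansion_raise, qExpansion_discriminant_eq, PowerSeries.map_expand]

variable {N}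
variable {k k₁ k₂ : ℤ}

theorem qE_mul (f : ModularForm (Gamma0 N) k₁) (g : ModularForm (Gamma0 N) k₂) :
    qExpansion 1 (f.mul g) = qExpansion 1 f * qExpansion 1 g :=
  ModularForm.qExpansion_mul one_pos (one_mem_strictPeriods_Gamma0 N) f g

omit [NeZero N] in
theorem qE_add (f g : ModularForm (Gamma0 N) k) :
    qExpansion 1 (f + g : ModularForm (Gamma0 N) k) = qExpansion 1 f + qExpansion 1 g :=
  ModularForm.qExpansion_add one_pos (one_mem_strictPeriods_Gamma0 N) f g

omit [NeZero N] in
theorem qE_sub (f g : ModularForm (Gamma0 N) k) :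
    qExpansion 1 (f - g : ModularForm (Gamma0 N) k) = qExpansion 1 f - qExpansion 1 g :=
  ModularForm.qExpansion_sub one_pos (one_mem_strictPeriods_Gamma0 N) f g

omit [NeZero N] in
theorem qE_smul (c : ℂ) (f : ModularForm (Gamma0 N) k) :
    qExpansion 1 (c • f : ModularForm (Gamma0 N) k) = PowerSeries.C c * qExpansion 1 f := by
  rw [← PowerSeries.smul_eq_C_mul]
  exact ModularForm.qExpansion_smul one_pos (one_mem_strictPeriods_Gamma0 N) c f

omit [NeZero N] in
theorem qE_mcast {a b : ℤ} (h : a = b) (f : ModularForm (Gamma0 N) a) :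
    qExpansion 1 (ModularForm.mcast h f : ModularForm (Gamma0 N) b) = qExpansion 1 f := rfl

end Forms

/-- **Sturm bound, integral form.** If the `q`-expansion of a modular form `G` of weight `k` on
`Γ₀(N)` is (the image in `ℂ⟦q⟧` of) the integral power series `g`, and the first `n` coefficients
of `g` vanish, where `n` exceeds the Sturm bound `k ψ(N) / 12`, then `g = 0`. -/
theorem eq_zero_of_isTr (N : ℕ) [NeZero N] {k : ℤ} (G : ModularForm (Gamma0 N) k)
    (g : PowerSeries ℤ) (n : ℕ)
    (hq : qExpansion 1 G = g.map (Int.castRingHom ℂ))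
    (hn : (k * (dedekindPsi N : ℤ)).toNat / 12 < n)
    (htr : IsTr n g (List.replicate n 0)) : g = 0 := by
  have hG : G = 0 := by
    apply ModularForm.sturm_bound_Gamma0 N
    intro m hm
    rw [Fermat.Agent.S20.H77.index_Gamma0] at hm
    rw [hq, PowerSeries.coeff_map, htr.coeff_eq_zero (lt_of_le_of_lt hm hn), map_zero]
  have h0 : g.map (Int.castRingHom ℂ) = 0 := by
    rw [← hq, hG]
    exact qExpansion_zero 1
  have hinj := PowerSeries.map_injective (Int.castRingHom ℂ) Int.cast_injective
  exact hinj (by rw [h0, map_zero])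

end Fermat.Agent.S28.H24

end
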