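import Mathlib
import Fermat.Agent.S28.Defs
import Fermat.Agent.S28.H24.SturmForms
import Fermat.Agent.S28.H24.CoeffThree

/-!
# S28 / M2: the two level-3 identities in `ℤ⟦q⟧`

With `Δ = deltaPS`, `Δ₃ = Δ(q³)`, `E = eisenstein4`, `E₃ = E(q³)`:

* `level3_a : Δ Δ₃ (E³ - 756 Δ - 19131876 Δ₃)² = (Δ² + 196830 Δ Δ₃ + 387420489 Δ₃²)²`
* `level3_b : Δ Δ₃ (E₃³ - 36 Δ - 756 Δ₃)² = (Δ² + 270 Δ Δ₃ + 729 Δ₃²)²`

Both sides are `q`-expansions of modular forms of weight `48` on `Γ₀(3)` (index `4`), so by the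
Sturm bound it suffices to compare the coefficients of `q^0, …, q^16`, which is done in
`CoeffThree.lean`.
-/

set_option autoImplicit false

namespace Fermat.Agent.S28.H24

open UpperHalfPlane ModularForm CongruenceSubgroup ModularCurve Fermat.Agent.S28
open scoped MatrixGroups Manifold ModularForm

theorem dedekindPsi_three : dedekindPsi 3 = 4 := by
  have h := Fermat.Agent.S20.H77.dedekindPsi_mul_prime_of_not_dvd (N := 1) (p := 3)
    (by norm_num) one_ne_zero (by norm_num)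
  simpa using h

theorem sturm_bound_three :
    (((12 + 12 + (12 + 12) : ℤ)) * (dedekindPsi 3 : ℤ)).toNat / 12 < 17 := by
  rw [dedekindPsi_three]
  decide

theorem level3_a :
    deltaPS * vPS 3 deltaPS * (eisenstein4 ^ 3 - 756 * deltaPS - 19131876 * vPS 3 deltaPS) ^ 2 =
      (deltaPS ^ 2 + 196830 * deltaPS * vPS 3 deltaPS + 387420489 * vPS 3 deltaPS ^ 2) ^ 2 := by
  rw [← sub_eq_zero]
  let A : ModularForm (Gamma0 3) 12 :=
    ModularForm.mcast (by norm_num) ((e4F 3).mul ((e4F 3).mul (e4F 3)))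
  let D : ModularForm (Gamma0 3) 12 := A - (756 : ℂ) • dF 3 - (19131876 : ℂ) • dV 3
  let Q : ModularForm (Gamma0 3) (12 + 12) :=
    (dF 3).mul (dF 3) + (196830 : ℂ) • (dF 3).mul (dV 3) + (387420489 : ℂ) • (dV 3).mul (dV 3)
  let G : ModularForm (Gamma0 3) (12 + 12 + (12 + 12)) :=
    ((dF 3).mul (dV 3)).mul (D.mul D) - Q.mul Q
  refine eq_zero_of_isTr 3 G _ 17 ?_ sturm_bound_three isTr_level3_a
  simp only [G, Q, D, A, qE_sub, qE_add, qE_mul, qE_smul, qE_mcast, qExpansion_dF, qExpansion_dV,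
    qExpansion_e4F, map_sub, map_add, map_mul, map_pow, map_ofNat]
  ring

theorem level3_b :
    deltaPS * vPS 3 deltaPS * ((vPS 3 eisenstein4) ^ 3 - 36 * deltaPS - 756 * vPS 3 deltaPS) ^ 2 =
      (deltaPS ^ 2 + 270 * deltaPS * vPS 3 deltaPS + 729 * vPS 3 deltaPS ^ 2) ^ 2 := by
  rw [← sub_eq_zero]
  let A : ModularForm (Gamma0 3) 12 :=
    ModularForm.mcast (by norm_num) ((e4V 3).mul ((e4V 3).mul (e4V 3)))
  let D : ModularForm (Gamma0 3) 12 := A - (36 : ℂ) • dF 3 - (756 : ℂ) • dV 3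
  let Q : ModularForm (Gamma0 3) (12 + 12) :=
    (dF 3).mul (dF 3) + (270 : ℂ) • (dF 3).mul (dV 3) + (729 : ℂ) • (dV 3).mul (dV 3)
  let G : ModularForm (Gamma0 3) (12 + 12 + (12 + 12)) :=
    ((dF 3).mul (dV 3)).mul (D.mul D) - Q.mul Q
  refine eq_zero_of_isTr 3 G _ 17 ?_ sturm_bound_three isTr_level3_b
  simp only [G, Q, D, A, qE_sub, qE_add, qE_mul, qE_smul, qE_mcast, qExpansion_dF, qExpansion_dV,
    qExpansion_e4V, map_sub, map_add, map_mul, map_pow, map_ofNat]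
  ring

end Fermat.Agent.S28.H24
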